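import Fermat.Agent.S24.Mod
import Fermat.Agent.S24.FFIdentity

/-!
# S18 / T2 (CONST_F): a function without zeros and poles is constant (characteristic `0`)

* `constOfOrdZero_of_finite` : generic version, `K` algebraically closed of characteristic `0`,
  `F / K(x)` finite for some transcendental `x`.
* `constOfOrdZero_modularFunctionFieldBar` : the instance `F = modularFunctionFieldBar N`,
  i.e. `H94.ConstOfOrdZero (AlgebraicClosure ℚ) (modularFunctionFieldBar N)` unfolded.
-/

set_option autoImplicit false

noncomputable section

open AlgebraicCurve IntermediateField ModularCurve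

namespace Fermat.Agent.S18.H144

open Fermat.Agent.S24

/-- A nonconstant function has a zero; hence a function without zeros is constant. -/
theorem constOfOrdZero_of_finite {K F : Type*} [Field K] [Field F] [Algebra K F]
    [IsAlgClosed K] [CharZero K] {x : F} (hx : Transcendental K x) [FiniteDimensional K⟮x⟯ F]
    (u : F) (hu : ∀ v : Place K F, v.ord u ≤ 0) : ∃ c : K, u = algebraMap K F c := by
  by_contra hcon
  have hnot : u ∉ (algebraMap K F).range := by
    rintro ⟨c, hc⟩
    exact hcon ⟨c, hc.symm⟩
  have htr : Transcendental K u := FF.transcendental_of_not_mem_range hnot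
  have : FiniteDimensional K⟮u⟯ F := FF.finiteDimensional_adjoin_of_transcendental hx htr
  have hsum := FF.sum_ord_eq_finrank htr (∅ : Finset (Place K F))
    (fun v => by
      simp only [Finset.notMem_empty, false_iff, not_lt]
      exact hu v)
  rw [Finset.sum_empty] at hsum
  have hpos : 0 < Module.finrank K⟮u⟯ F := Module.finrank_pos
  have : (0 : ℤ) < (Module.finrank K⟮u⟯ F : ℤ) := by exact_mod_cast hpos
  omega

/-- The `j`-function is transcendental over `ℚ̄`. -/
theorem transcendental_jF (N : ℕ) [NeZero N] : Transcendental Kbar (jF N) := by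
  obtain ⟨P⟩ := nonempty_modularPackage N
  apply FF.transcendental_of_not_mem_range
  rintro ⟨c, hc⟩
  have x : XX N := ((1 : Matrix.SpecialLinearGroup (Fin 2) ℤ) : XX N)
  have h1 := P.dataInf.σ_t_order x
  have h2 : (jF N)⁻¹ = algebraMap Kbar (FF N) c⁻¹ := by rw [map_inv₀, hc]
  have h3 : (P.dataInf.σ x (jF N)⁻¹).order = 0 := by
    have := P.dataInf.σ_const x c⁻¹
    rw [← h2] at this
    rw [this, HahnSeries.order_C]
  have := P.dataInf.m_pos
  omega

/-- **T2 (CONST_F).** In the function field of `X₀(N)` over `ℚ̄`, a function without zeros and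
poles is constant. -/
theorem constOfOrdZero_modularFunctionFieldBar (N : ℕ) [NeZero N]
    (u : modularFunctionFieldBar N) (_hu0 : u ≠ 0)
    (hu : ∀ v : Place (AlgebraicClosure ℚ) (modularFunctionFieldBar N), v.ord u = 0) :
    ∃ c : AlgebraicClosure ℚ, u = algebraMap (AlgebraicClosure ℚ) (modularFunctionFieldBar N) c := by
  obtain ⟨P⟩ := nonempty_modularPackage N
  have := P.finiteDimensional
  exact constOfOrdZero_of_finite (transcendental_jF N) u (fun v => (hu v).le)

end Fermat.Agent.S18.H144
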