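import Fermat.Agent.S18.H504.ConstFree
import Fermat.Agent.S18.H9.Res
import Fermat.Agent.S28.H988.Degree

/-!
# S18 / node_constFk (T3, CONST_Fk): functions without zeros and poles on the special fibre

* `finiteDimensional_adjoin_subtype` : generic transfer of finiteness `E / k(x)` from
  intermediate fields of `L` to the type `↥E`.
* `jFk k N` : `j` as an element of `F_{N,k} = modularFunctionFieldFullC k N`.
* `transcendental_jFk` (`k` algebraically closed), `finiteDimensional_jFk`
  (primes dividing `N` invertible in `k`): `F_{N,k}` is finite over `k(j)`  (= Sq05 MOD.1).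
* `constOfOrdZero_fullC` : `k` algebraically closed, primes dividing `N` invertible in `k`:
  `∀ u : F_{N,k}, u ≠ 0 → (∀ v, v.ord u = 0) → ∃ c, u = algebraMap _ _ c`  (= Sq05 T3Generic).
* `node_constFk` : EXACTLY the type of `Integ.node_constFk` (= `H665.ConstLemma N A`, unfolded;
  also Sq05 `T3Statement`).
-/

set_option autoImplicit false

noncomputable section

open AlgebraicCurve IntermediateField ModularCurve

namespace Fermat.Agent.S18.H144

/-- Transfer of finiteness from the ambient field to the subtype: if `E` is finite over `k(x)`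
inside `L`, then the field `↥E` is finite over its subfield `k(x)`. -/
theorem finiteDimensional_adjoin_subtype {k L : Type*} [Field k] [Field L] [Algebra k L]
    (E : IntermediateField k L) (x : E) (h : k⟮(x : L)⟯ ≤ E)
    [hfin : FiniteDimensional k⟮(x : L)⟯ (IntermediateField.extendScalars h)] :
    FiniteDimensional k⟮x⟯ E := by
  have hmap : (k⟮x⟯).map E.val = k⟮(x : L)⟯ := by
    rw [IntermediateField.adjoin_map, Set.image_singleton]
    rfl
  let e₁ : ↥(k⟮(x : L)⟯) ≃+* ↥(k⟮x⟯) :=
    ((IntermediateField.equivMap (k⟮x⟯) E.val).trans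
      (IntermediateField.equivOfEq hmap)).symm.toRingEquiv
  let e₂ : ↥(IntermediateField.extendScalars h) ≃+* ↥E := RingEquiv.refl _
  refine Module.Finite.of_equiv_equiv e₁ e₂ ?_
  ext c
  obtain ⟨d, hd⟩ : ∃ d : ↥(k⟮x⟯), ((IntermediateField.equivMap (k⟮x⟯) E.val).trans
      (IntermediateField.equivOfEq hmap)) d = c :=
    ((IntermediateField.equivMap (k⟮x⟯) E.val).trans
      (IntermediateField.equivOfEq hmap)).surjective c
  have hc : e₁ c = d := by
    rw [← hd]
    exact AlgEquiv.symm_apply_apply _ d
  simp only [RingHom.comp_apply, RingHom.coe_coe]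
  rw [hc, ← hd]
  rfl

section AnyField

variable (k : Type*) [Field k] (N : ℕ)

/-- `j` as an element of the function field `k(j(q^d) : d ∣ N)`. -/
def jFk : modularFunctionFieldFullC k N := ⟨jqModC k, jqModC_mem_full k N⟩

theorem jFk_not_mem_range : jFk k N ∉ (algebraMap k (modularFunctionFieldFullC k N)).range := by
  rintro ⟨c, hc⟩
  have h1 : ((algebraMap k (modularFunctionFieldFullC k N) c :
      modularFunctionFieldFullC k N) : LaurentSeries k).coeff (-1)
      = ((jFk k N : modularFunctionFieldFullC k N) : LaurentSeries k).coeff (-1) := by rw [hc]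
  have h2 : ((algebraMap k (modularFunctionFieldFullC k N) c :
      modularFunctionFieldFullC k N) : LaurentSeries k)
      = algebraMap k (LaurentSeries k) c := rfl
  rw [h2, algebraMap_laurentSeries_eq_single] at h1
  have h3 : ((jFk k N : modularFunctionFieldFullC k N) : LaurentSeries k) = jqModC k := rfl
  rw [h3, coeff_jqModC_neg_one, HahnSeries.coeff_single_of_ne (by norm_num)] at h1
  exact zero_ne_one h1

theorem transcendental_jFk [IsAlgClosed k] : Transcendental k (jFk k N) :=
  S24.FF.transcendental_of_not_mem_range (jFk_not_mem_range k N)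

variable [NeZero N]

/-- `F_{N,k}` is finite over `k(j)` (from the landed S28 degree theory). -/
theorem finiteDimensional_jFk (hchar : ∀ p : ℕ, p.Prime → p ∣ N → (p : k) ≠ 0) :
    FiniteDimensional k⟮jFk k N⟯ (modularFunctionFieldFullC k N) := by
  have H : S28.H626.HasModPolys k N :=
    S28.H867.hasModPolys k N (fun p hp _ _ => S28.H807.nonempty_modPolyData p hp) hchar
  have hfin := S28.H626.finiteDimensional_extendScalars N H
  exact @finiteDimensional_adjoin_subtype k (LaurentSeries k) _ _ _
    (modularFunctionFieldFullC k N) (jFk k N) (S28.H626.adjoin_j_le_full (k := k) N) hfin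

/-- **T3, generic field**: `k` algebraically closed, all primes dividing `N` invertible in `k`.
A nonzero function in `k(j(q^d) : d ∣ N)` without zeros and poles is constant. -/
theorem constOfOrdZero_fullC [IsAlgClosed k]
    (hchar : ∀ p : ℕ, p.Prime → p ∣ N → (p : k) ≠ 0) :
    ∀ u : modularFunctionFieldFullC k N, u ≠ 0 →
      (∀ v : Place k (modularFunctionFieldFullC k N), v.ord u = 0) →
      ∃ c : k, u = algebraMap k (modularFunctionFieldFullC k N) c := by
  have := finiteDimensional_jFk k N hchar
  exact H504.constOfOrdZero_of_finite (transcendental_jFk k N)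

end AnyField

set_option synthInstance.maxHeartbeats 400000 in
/-- **node_constFk** (T3, CONST_Fk): exactly the type of `Integ.node_constFk`
(`H665.ConstLemma N A` unfolded). -/
theorem node_constFk (N : ℕ) [NeZero N] {ℓ : ℕ} [Fact ℓ.Prime] (hℓN : ¬ ℓ ∣ N)
    (A : ValuationSubring (AlgebraicClosure ℚ)) (hA : A.LiesOverPrime ℓ) :
    ∀ f : ↥(modularFunctionFieldFullC (IsLocalRing.ResidueField A) N), f ≠ 0 →
      (∀ Q : Place (IsLocalRing.ResidueField A)
        ↥(modularFunctionFieldFullC (IsLocalRing.ResidueField A) N), Q.ord f = 0) →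
      ∃ c : IsLocalRing.ResidueField A,
        f = algebraMap (IsLocalRing.ResidueField A)
          ↥(modularFunctionFieldFullC (IsLocalRing.ResidueField A) N) c := by
  have : IsAlgClosed (IsLocalRing.ResidueField A) := H9.resAlgClosed (AlgebraicClosure ℚ) A
  refine constOfOrdZero_fullC (IsLocalRing.ResidueField A) N fun p hp hpN => ?_
  refine H9.resChar (AlgebraicClosure ℚ) A ℓ p Fact.out hp hA ?_
  rintro rfl
  exact hℓN hpN

end Fermat.Agent.S18.H144
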